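import Mathlib
import Fermat.Statements.S15
import Fermat.Agent.S17.Model.ReducedX0
import Fermat.Agent.S30.Arith.HeckeGalois
import Fermat.Prelude.Def_ModularCurve_HeckeModule
import Fermat.Prelude.Def_ModularCurve_ReductionModL

/-!
# PROJECT M (S15), block [A]: the frame

Vocabulary of block [A] (Mazur's step three on the frame of S18): the cusp `∞` of `X₀(N)` (main's
`S17.Model.ReducedX0.oo`), the predicate `IsCuspZero` (a pole of `j` other than `∞`; for `N` prime
this is THE cusp `0`), rational places, the class `(x) - (y)` in `J₀(N)(ℚ̄)`, the ring generated by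
the Hecke operators `T_r`, `r ∉ S`, inside `End (J₀(N)(ℚ̄))`, and the SEAMS of block [A] as
propositions (`SeamC0`, `SeamCE`, `SeamStar`, `SeamCL`, `SeamKred`, `SeamKu`).
-/

set_option autoImplicit false
set_option linter.unusedSectionVars false

noncomputable section

namespace Fermat.Agent.S15.A.Frame

open AlgebraicCurve ModularCurve WeierstrassCurve WeierstrassCurve.Affine

local notation "Kb" => AlgebraicClosure ℚ
local notation "GQ" => (AlgebraicClosure ℚ ≃ₐ[ℚ] AlgebraicClosure ℚ)

variable (N : ℕ) [NeZero N]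

/-- the cusp `∞` of `X₀(N)` (the place of the `q`-expansion order) -/
abbrev cuspInf : Place Kb (modularFunctionFieldBar N) := Fermat.Agent.S17.Model.ReducedX0.oo N

/-- a cusp other than `∞`: a pole of `j` different from `∞` (for `N` prime: THE cusp `0`) -/
def IsCuspZero (c0 : Place Kb (modularFunctionFieldBar N)) : Prop :=
  c0 ≠ cuspInf N ∧ c0.ord (Fermat.Agent.S24.DegreeAlg.jgen N) < 0

/-- a place fixed by the arithmetic Galois action: a rational point of `X₀(N)` -/
def IsRatPlace (x : Place Kb (modularFunctionFieldBar N)) : Prop :=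
  ∀ σ : GQ, arithmeticGalois (modularFunctionFieldFull N) σ • x = x

theorem isRatPlace_cuspInf : IsRatPlace N (cuspInf N) :=
  Fermat.Agent.S17.Model.ReducedX0.galAut_smul_oo N

variable {N}

/-- the divisor `(x) - (y)` of degree zero -/
def diffDiv (x y : Place Kb (modularFunctionFieldBar N)) :
    Divisor.degZero (K := Kb) (F := modularFunctionFieldBar N) :=
  ⟨Finsupp.single x 1 - Finsupp.single y 1, by
    rw [Divisor.mem_degZero, map_sub, Divisor.degree_single, Divisor.degree_single,
      Fermat.Agent.S18.A.Instances.deg_one_bar, Fermat.Agent.S18.A.Instances.deg_one_bar,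
      sub_self]⟩

/-- the class of `(x) - (y)` in `J₀(N)(ℚ̄)` -/
def diffClass (x y : Place Kb (modularFunctionFieldBar N)) : JZero N := Pic0.mk (diffDiv x y)

variable (N)

/-- the ring generated by the Hecke operators `T_r`, `r` prime, `r ∉ S`, inside the
endomorphisms of `J₀(N)(ℚ̄)` (not assumed commutative) -/
def heckeRing (S : Set ℕ) : Subring (Module.End ℤ (JZero N)) :=
  Subring.closure {T | ∃ r : Nat.Primes, (r : ℕ) ∉ S ∧ T = heckeOperatorBar N r}

/-- the rational points `J₀(N)(ℚ)` -/
abbrev JQ : AddSubgroup (JZero N) := FixedPoints.addSubgroup GQ (JZero N)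

/-! ### the seams -/

/-- **(C-0)** the cusp `0` exists, is unique and rational -/
def SeamC0 : Prop :=
  ∃ c0 : Place Kb (modularFunctionFieldBar N), IsCuspZero N c0 ∧ IsRatPlace N c0 ∧
    ∀ c : Place Kb (modularFunctionFieldBar N), IsCuspZero N c → c = c0

/-- **(C-E)** the rational point `x = (E, ⟨Q⟩)` of `X₀(p)` and the cusp dictionary at the
multiplicative primes -/
def SeamCE (p : ℕ) [NeZero p] (W : WeierstrassCurve ℤ)
    (Q : ((W.map (Int.castRingHom ℚ))⁄Kb).Point) : Prop :=
  ∃ x : Place Kb (modularFunctionFieldBar p), IsRatPlace p x ∧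
    ∀ (l : ℕ) [Fact l.Prime], l ≠ p → (l : ℤ) ∣ W.Δ → ¬ (l : ℤ) ∣ W.c₄ →
      ∀ (A : ValuationSubring Kb), A.LiesOverPrime l → ∀ (h : ReductionInputsModL A p)
        (c0 : Place Kb (modularFunctionFieldBar p)), IsCuspZero p c0 →
        (¬ W.InZeroComponentAt A Q → placeReductionModL h x = placeReductionModL h c0) ∧
        (W.InZeroComponentAt A Q → placeReductionModL h x = placeReductionModL h (cuspInf p))

/-- **(STAR)** an element of the Hecke ring away from `S` which kills `J₀(N)(ℚ)` up to torsion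
and does not kill the cuspidal class -/
def SeamStar (S : Set ℕ) (c : JZero N) : Prop :=
  ∃ t ∈ heckeRing N S, (∀ z ∈ JQ N, ∃ m : ℕ, 0 < m ∧ m • t z = 0) ∧ t c ≠ 0

/-- **(C-L)** the elementary local leaf: a rational point of order `p` in the zero component at a
multiplicative prime `l ≠ p` forces `p ∣ l - 1` or `p ∣ l + 1` -/
def SeamCL (p : ℕ) (W : WeierstrassCurve ℤ) (Q : ((W.map (Int.castRingHom ℚ))⁄Kb).Point) : Prop :=
  ∀ (l : ℕ), l.Prime → l ≠ p → (l : ℤ) ∣ W.Δ → ¬ (l : ℤ) ∣ W.c₄ →
    ∀ (A : ValuationSubring Kb), A.LiesOverPrime l → W.InZeroComponentAt A Q →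
      p ∣ l - 1 ∨ p ∣ l + 1

/-- **(C-L), weak form** (all that `Top.mazur_of_seams` consumes): at a multiplicative prime
`l ≠ 2, p` where `Q` lies in the zero component, `l` does not divide `p - 1` -/
def SeamCLw (p : ℕ) (W : WeierstrassCurve ℤ) (Q : ((W.map (Int.castRingHom ℚ))⁄Kb).Point) : Prop :=
  ∀ (l : ℕ), l.Prime → l ≠ 2 → l ≠ p → (l : ℤ) ∣ W.Δ → ¬ (l : ℤ) ∣ W.c₄ →
    ∀ (A : ValuationSubring Kb), A.LiesOverPrime l → W.InZeroComponentAt A Q → ¬ l ∣ p - 1

/-- the divisibility form of (C-L) gives the weak form, for `p` an odd prime -/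
theorem seamCLw_of_seamCL {p : ℕ} (hp : p.Prime) (hp2 : p ≠ 2)
    {W : WeierstrassCurve ℤ} {Q : ((W.map (Int.castRingHom ℚ))⁄Kb).Point} (h : SeamCL p W Q) :
    SeamCLw p W Q := by
  intro l hl hl2 hlp hlΔ hlc A hA hin hdvd
  have hp1 : 2 ≤ p := hp.two_le
  have hle : l ≤ p - 1 := Nat.le_of_dvd (by omega) hdvd
  rcases h l hl hlp hlΔ hlc A hA hin with h | h
  · have : p ≤ l - 1 := Nat.le_of_dvd (by have := hl.two_le; omega) h
    omega
  · have h1 : p ≤ l + 1 := Nat.le_of_dvd (by omega) h
    have h2 : l = p - 1 := by omega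
    have hev : Even l := by
      rw [h2]
      rcases hp.eq_two_or_odd' with h | h
      · exact absurd h hp2
      · exact Nat.Odd.sub_odd h odd_one
    exact hl2 ((Nat.Prime.even_iff hl).mp hev)

/-- **(K-red)** the kernel of the reduction at `A` is stable under `T_r`, `r` prime to the
residue characteristic and the level -/
def SeamKred : Prop :=
  ∀ (l : ℕ) [Fact l.Prime], ¬ l ∣ N → ∀ (A : ValuationSubring Kb), A.LiesOverPrime l →
    ∀ r : Nat.Primes, (r : ℕ) ≠ l → ¬ (r : ℕ) ∣ N →
      ∀ z : JZero N, reductionModL A N z = 0 → reductionModL A N (heckeOperatorBar N r z) = 0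

/-- **(K-u)** the cuspidal class is killed by `N - 1` (the modular unit `Δ(z)/Δ(Nz)`) -/
def SeamKu : Prop :=
  ∀ c0 : Place Kb (modularFunctionFieldBar N), IsCuspZero N c0 →
    (N - 1) • diffClass c0 (cuspInf N) = 0

end Fermat.Agent.S15.A.Frame
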