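import Mathlib

/-!
# PROJECT M (S15), block [A]: the abstract glue

Pure group theory.  `J` an abelian group with three "reduction" homomorphisms `red2`, `red3`, `redl`
which are injective on torsion prime to `2`, `3`, `l`; `t` an endomorphism preserving the three
kernels; `y` with `t y` torsion, `red2 y = 0`, `red3 y = 0`, `redl (y + c) = 0`; `c` killed by an
integer prime to `l`.  Then `t c = 0`.
-/

set_option autoImplicit false

namespace Fermat.Agent.S15.A.Glue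

variable {J J2 J3 Jl : Type*} [AddCommGroup J] [AddCommGroup J2] [AddCommGroup J3]
  [AddCommGroup Jl]

/-- a torsion element whose reductions at `2` and `3` vanish is zero -/
theorem eq_zero_of_two_three (red2 : J →+ J2) (red3 : J →+ J3)
    (inj2 : ∀ (m : ℕ) (z : J), ¬ 2 ∣ m → m • z = 0 → red2 z = 0 → z = 0)
    (inj3 : ∀ (m : ℕ) (z : J), ¬ 3 ∣ m → m • z = 0 → red3 z = 0 → z = 0)
    (w : J) (hw : ∃ m : ℕ, 0 < m ∧ m • w = 0) (h2 : red2 w = 0) (h3 : red3 w = 0) : w = 0 := by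
  obtain ⟨m, hm, hmw⟩ := hw
  obtain ⟨a, m', hm', rfl⟩ := Nat.exists_eq_two_pow_mul_odd hm.ne'
  -- the odd part dies at `2`
  have h1 : (2 ^ a) • w = 0 := by
    refine inj2 m' _ ?_ ?_ ?_
    · exact fun h => (Nat.not_even_iff_odd.mpr hm') (even_iff_two_dvd.mpr h)
    · rw [← mul_smul, mul_comm]
      exact hmw
    · rw [map_nsmul, h2, smul_zero]
  -- the `2`-part dies at `3`
  refine inj3 (2 ^ a) w ?_ h1 h3
  intro h
  have := (Nat.Prime.dvd_of_dvd_pow Nat.prime_three h)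
  omega

/-- **the glue** -/
theorem glue (red2 : J →+ J2) (red3 : J →+ J3) (redl : J →+ Jl) (l : ℕ)
    (inj2 : ∀ (m : ℕ) (z : J), ¬ 2 ∣ m → m • z = 0 → red2 z = 0 → z = 0)
    (inj3 : ∀ (m : ℕ) (z : J), ¬ 3 ∣ m → m • z = 0 → red3 z = 0 → z = 0)
    (injl : ∀ (m : ℕ) (z : J), ¬ l ∣ m → m • z = 0 → redl z = 0 → z = 0)
    (t : J →+ J)
    (st2 : ∀ z, red2 z = 0 → red2 (t z) = 0) (st3 : ∀ z, red3 z = 0 → red3 (t z) = 0)
    (stl : ∀ z, redl z = 0 → redl (t z) = 0)
    (y c : J) (hy : ∃ m : ℕ, 0 < m ∧ m • t y = 0) (h2 : red2 y = 0) (h3 : red3 y = 0)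
    (hl : redl (y + c) = 0) (n : ℕ) (hn : ¬ l ∣ n) (hc : n • c = 0) : t c = 0 := by
  have hty : t y = 0 :=
    eq_zero_of_two_three red2 red3 inj2 inj3 (t y) hy (st2 y h2) (st3 y h3)
  have h1 : redl (t c) = 0 := by
    have := stl (y + c) hl
    rwa [map_add, hty, zero_add] at this
  refine injl n (t c) hn ?_ h1
  rw [← map_nsmul, hc, map_zero]

end Fermat.Agent.S15.A.Glue
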