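import Mathlib
import Fermat.Agent.S18.GaussFromH
import Fermat.Agent.S37.ES.NormRed
import Fermat.Agent.S37.ES.HeckeRho
import Fermat.Agent.S37.Hecke.Principal

/-!
# PROJECT M (S15), block [A], (K-red) part A: the norm `N_{E/αF} (β u)` of a Gauss one-unit

`A` a valuation subring of `ℚ̄`, `π : A →+* k` with kernel the nonunits, `N` a level with `HasRep`
(main's Gauss valuation on `F_L = ℚ̄(X₀(N))`), `r` ANY prime not dividing `N` (the residue
characteristic plays no role).

* `coeffMap_mem_fullC` : an `A`-integral series lying in `F_L` reduces INTO `F_k`;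
* `exists_normI` : for `a ∈ intRing` the series `normSeries ζ r a` is integral, realises
  `N(β (toFL a))`, and its reduction is `normSeries ζ̄ r (red a)`: a function of `red a` alone,
  nonzero when `red a ≠ 0`;
* `normBeta_oneUnit` : if `f = a / b` with `red a = red b ≠ 0` (a Gauss one-unit) then
  `N(β f) = a' / b'` with `red a' = red b' ≠ 0`;
* `mapDomain_heckeDiv_oneUnit` : `r_* (T_r (div f)) = 0` for a Gauss one-unit `f`;
* `mapDomain_heckeDiv_eq_of_redw_eq` : `r_* T_r (div f) = r_* T_r (div f')` for Gauss units with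
  the same reduction.
-/

set_option autoImplicit false
set_option linter.unusedSectionVars false
set_option linter.style.haveILetI false
set_option synthInstance.maxHeartbeats 400000

noncomputable section

namespace Fermat.Agent.S15.A.HeckeRedA

open ModularCurve HahnSeries AlgebraicCurve
open Fermat.Agent.S28.LaurentRescale Fermat.Agent.S18.GaussFromH
open Fermat.Agent.S37.ES.NormAlpha Fermat.Agent.S37.ES.NormRed
open Fermat.Agent.S37.Hecke.Principal Fermat.Agent.S37.Hecke.Integral

local notation "Kb" => AlgebraicClosure ℚ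

variable {N : ℕ} [NeZero N] {A : ValuationSubring Kb} {k : Type*} [Field k] {π : ↥A →+* k}

/-! ### integral series in `F_L` reduce into `F_k` -/

/-- **An `A`-integral series lying in `F_L` reduces into `F_k`.** -/
theorem coeffMap_mem_fullC (hrep : HasRep A π N) (hπ : ∀ a : ↥A, ¬ IsUnit a → π a = 0)
    {s : LaurentSeries ↥A}
    (hs : coeffMap A.subtype s ∈ laurentBaseChange Kb (modularFunctionFieldFull N)) :
    coeffMap π s ∈ modularFunctionFieldFullC k N := by
  by_cases h0 : coeffMap π s = 0
  · rw [h0]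
    exact zero_mem _
  have hs0 : s ≠ 0 := by
    rintro rfl
    exact h0 (map_zero _)
  set f : ↥(laurentBaseChange Kb (modularFunctionFieldFull N)) := ⟨coeffMap A.subtype s, hs⟩
    with hf
  have hf0 : f ≠ 0 := by
    intro h
    apply hs0
    apply coeffMap_subtype_injective (A := A)
    rw [map_zero]
    exact congrArg Subtype.val h
  obtain ⟨c, a, b, hc, ha, hb, h⟩ := hrep f hf0
  -- the identity in `ℚ̄((q))`
  have hser : coeffMap A.subtype s * coeffMap A.subtype b.1 =
      HahnSeries.single 0 c * coeffMap A.subtype a.1 := by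
    have := congrArg Subtype.val h
    simp only [MulMemClass.coe_mul, coe_toFL] at this
    rw [this]
    congr 1
    show ((algebraMap Kb ↥(laurentBaseChange Kb (modularFunctionFieldFull N)) c : _) :
      LaurentSeries Kb) = _
    rw [← algebraMap_laurentSeries_eq_single]
    rfl
  have hbk : coeffMap π b.1 ≠ 0 := fun h0 => hb (Subtype.ext h0)
  have hak : coeffMap π a.1 ≠ 0 := fun h0 => ha (Subtype.ext h0)
  -- `c ∈ A`: otherwise `c⁻¹` is a nonunit of `A` and the reduction of `a` would vanish
  have hcA : c ∈ A := by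
    by_contra hcA
    have hcA' : c⁻¹ ∈ A := (A.mem_or_inv_mem c).resolve_left hcA
    have hu : ¬ IsUnit (⟨c⁻¹, hcA'⟩ : ↥A) := by
      intro hu
      obtain ⟨v, hv⟩ := hu.exists_right_inv
      have h1 : c⁻¹ * (v : Kb) = 1 := by
        have := congrArg (fun x : ↥A => (x : Kb)) hv
        simpa using this
      have hcv : (v : Kb) = c := by
        have := eq_inv_of_mul_eq_one_right h1
        rwa [inv_inv] at this
      exact hcA (hcv ▸ v.2)
    have hA : HahnSeries.single 0 (⟨c⁻¹, hcA'⟩ : ↥A) * (s * b.1) = a.1 := by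
      apply coeffMap_subtype_injective (A := A)
      rw [map_mul, map_mul, coeffMap_single, hser, ← mul_assoc, HahnSeries.single_mul_single,
        zero_add]
      show HahnSeries.single 0 (c⁻¹ * c) * _ = _
      rw [inv_mul_cancel₀ hc]
      exact one_mul _
    have hk := congrArg (coeffMap π) hA
    rw [map_mul, coeffMap_single, hπ _ hu, HahnSeries.single_eq_zero, zero_mul] at hk
    exact hak hk.symm
  -- reduce the identity
  have hA : s * b.1 = HahnSeries.single 0 (⟨c, hcA⟩ : ↥A) * a.1 := by
    apply coeffMap_subtype_injective (A := A)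
    rw [map_mul, map_mul, coeffMap_single]
    exact hser
  have hk := congrArg (coeffMap π) hA
  rw [map_mul, map_mul, coeffMap_single] at hk
  have hval : coeffMap π s =
      HahnSeries.single 0 (π ⟨c, hcA⟩) * coeffMap π a.1 * (coeffMap π b.1)⁻¹ := by
    rw [← hk, mul_assoc, mul_inv_cancel₀ hbk, mul_one]
  rw [hval]
  refine mul_mem (mul_mem ?_ a.2.2) (inv_mem b.2.2)
  rw [← algebraMap_laurentSeries_eq_single]
  exact (modularFunctionFieldFullC k N).algebraMap_mem _

/-! ### the norm of an integral element -/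

section Norm

variable {r : ℕ} [NeZero r]

theorem conjProd_ne_zero {R : Type*} [CommRing R] [IsDomain R] (ζ : Rˣ) (n : ℕ)
    {y : LaurentSeries R} (hy : y ≠ 0) : conjProd ζ n y ≠ 0 := by
  unfold conjProd
  rw [Finset.prod_ne_zero_iff]
  intro b _
  exact (map_ne_zero_iff _ (rescaleU (ζ ^ b)).injective).mpr hy

/-- **Integrality and reduction of the norm**, for any prime `r ∤ N`: there is a unit `ζk` of `k`
such that for every integral `a` the element `N(β (toFL a))` is `toFL a'` with `a'` integral and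
`red a' = normSeries ζk r (red a)`. -/
theorem exists_normI (hr : r.Prime) (hrN : ¬ r ∣ N) (hrep : HasRep A π N)
    (hπ : ∀ a : ↥A, ¬ IsUnit a → π a = 0) :
    ∃ ζk : kˣ, ∀ a : ↥(intRing A π N), ∃ a' : ↥(intRing A π N),
      toFL A π N a' = normBeta N r (toFL A π N a) ∧
      coeffMap π a'.1 = normSeries ζk r (coeffMap π a.1) ∧
      (red A π N a ≠ 0 → red A π N a' ≠ 0) := by
  letI := algebraAlong (heckeAlphaBar Kb N r)
  have hρ : HasRho N r :=
    hasRho_of_algHom N r (Fermat.Agent.S37.ES.HeckeRho.exists_rho hr hrN)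
  have hrk : ((r : ℕ) : Kb) ≠ 0 := Nat.cast_ne_zero.mpr hr.ne_zero
  obtain ⟨ζ, hζ⟩ := Fermat.Agent.S28.StepDeg.exists_isPrimitiveRoot_units (k := Kb) (p := r) hrk
  obtain ⟨ζA, hζA, hord⟩ := exists_unit_of_isPrimitiveRoot A hr.pos hζ
  refine ⟨Units.map (π : ↥A →+* k).toMonoidHom ζA, fun a => ?_⟩
  set y : LaurentSeries ↥A := a.1 with hy
  set s : LaurentSeries ↥A := normSeries ζA r y with hs
  set nm : ↥(laurentBaseChange Kb (modularFunctionFieldFull N)) :=
    normBeta N r (toFL A π N a) with hnm
  -- characteristic zero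
  have hL : coeffMap A.subtype s = (nm : LaurentSeries Kb) := by
    apply qExpand_injective r
    have h1 := qExpand_norm_beta hr hrN hρ hζ (toFL A π N a)
    rw [← coeffMap_qExpand, hs, qExpand_normSeries hord, map_mul, coeffMap_qExpand,
      coeffMap_qExpand, coeffMap_conjProd, hζA]
    rw [coe_toFL] at h1
    exact h1.symm
  have hmemL : coeffMap A.subtype s ∈ laurentBaseChange Kb (modularFunctionFieldFull N) := by
    rw [hL]
    exact nm.2
  have hmemk : coeffMap π s ∈ modularFunctionFieldFullC k N := coeffMap_mem_fullC hrep hπ hmemL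
  have hk : coeffMap π s =
      normSeries (Units.map (π : ↥A →+* k).toMonoidHom ζA) r (coeffMap π y) := by
    rw [hs, coeffMap_normSeries]
  refine ⟨⟨s, hmemL, hmemk⟩, Subtype.ext ?_, hk, ?_⟩
  · rw [coe_toFL]
    exact hL
  · intro ha h0
    have hyk : coeffMap π y ≠ 0 := fun h => ha (Subtype.ext h)
    have h1 : coeffMap π s = 0 := congrArg Subtype.val h0
    have h2 : qExpand k r (coeffMap π s) =
        qExpand k r (qExpand k r (coeffMap π y)) *
          conjProd (Units.map (π : ↥A →+* k).toMonoidHom ζA) r (coeffMap π y) := by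
      rw [← coeffMap_qExpand, hs, qExpand_normSeries hord, map_mul, coeffMap_qExpand,
        coeffMap_qExpand, coeffMap_conjProd]
    rw [h1, map_zero] at h2
    have h3 : qExpand k r (qExpand k r (coeffMap π y)) ≠ 0 :=
      (map_ne_zero_iff _ (qExpand_injective r)).mpr
        ((map_ne_zero_iff _ (qExpand_injective r)).mpr hyk)
    exact mul_ne_zero h3 (conjProd_ne_zero _ r hyk) h2.symm

end Norm

/-! ### Gauss one-units -/

section OneUnit

variable {r : ℕ} [NeZero r]

/-- the norm of a Gauss one-unit is a Gauss one-unit -/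
theorem normBeta_oneUnit (hr : r.Prime) (hrN : ¬ r ∣ N) (hrep : HasRep A π N)
    (hπ : ∀ a : ↥A, ¬ IsUnit a → π a = 0)
    {f : ↥(laurentBaseChange Kb (modularFunctionFieldFull N))} {a b : ↥(intRing A π N)}
    (hab : red A π N a = red A π N b) (hb : red A π N b ≠ 0)
    (h : f * toFL A π N b = toFL A π N a) :
    ∃ a' b' : ↥(intRing A π N), red A π N a' = red A π N b' ∧ red A π N b' ≠ 0 ∧
      normBeta N r f * toFL A π N b' = toFL A π N a' := by
  obtain ⟨ζk, hn⟩ := exists_normI (r := r) hr hrN hrep hπ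
  obtain ⟨a', ha', hra', -⟩ := hn a
  obtain ⟨b', hb', hrb', hne⟩ := hn b
  refine ⟨a', b', ?_, hne hb, ?_⟩
  · apply Subtype.ext
    rw [coe_red, coe_red, hra', hrb']
    have : coeffMap π a.1 = coeffMap π b.1 := congrArg Subtype.val hab
    rw [this]
  · rw [ha', hb', ← normBeta_mul, h]

attribute [local instance] Fermat.Agent.S18.A.Instances.hasPrincipalDivisors_bar

/-- **`r_* T_r (div f) = 0` for a Gauss one-unit `f`.** -/
theorem mapDomain_heckeDiv_oneUnit (hr : r.Prime) (hrN : ¬ r ∣ N) (hrep : HasRep A π N)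
    (hπ : ∀ a : ↥A, ¬ IsUnit a → π a = 0)
    {rr : Place Kb ↥(laurentBaseChange Kb (modularFunctionFieldFull N)) →
      Place k ↥(modularFunctionFieldFullC k N)}
    (hrr : IsPlaceReductionAlong A π N rr)
    {f : ↥(laurentBaseChange Kb (modularFunctionFieldFull N))} {a b : ↥(intRing A π N)}
    (hab : red A π N a = red A π N b) (hb : red A π N b ≠ 0)
    (h : f * toFL A π N b = toFL A π N a)
    {D : Divisor Kb ↥(laurentBaseChange Kb (modularFunctionFieldFull N))}
    (hD : ∀ v, D v = v.ord f) :
    Finsupp.mapDomain rr (heckeDiv N r D) = 0 := by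
  obtain ⟨a', b', hab', hb', h'⟩ := normBeta_oneUnit hr hrN hrep hπ hab hb h
  have hf0 : f ≠ 0 := by
    intro h0
    rw [h0, zero_mul] at h
    exact toFL_ne_zero_of_red_ne_zero (hab ▸ hb) h.symm
  have hmem : normBeta N r f ∈ Ow A π N := ⟨a', b', hb', h'⟩
  have hredw : redw A π N ⟨normBeta N r f, hmem⟩ = 1 := by
    rw [redw_eq ⟨normBeta N r f, hmem⟩ hb' h', hab', div_self hb']
  ext Q
  rw [mapDomain_div_eq hrr ⟨normBeta N r f, hmem⟩ (by rw [hredw]; exact one_ne_zero)
    (heckeDiv N r D) (fun v => heckeDiv_principal N r hf0 hD v) Q, hredw, Place.ord_one]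
  rfl

/-- **`r_* T_r (div f) = r_* T_r (div f')` for Gauss units with the same reduction.** -/
theorem mapDomain_heckeDiv_eq_of_redw_eq (hr : r.Prime) (hrN : ¬ r ∣ N) (hrep : HasRep A π N)
    (hπ : ∀ a : ↥A, ¬ IsUnit a → π a = 0)
    {rr : Place Kb ↥(laurentBaseChange Kb (modularFunctionFieldFull N)) →
      Place k ↥(modularFunctionFieldFullC k N)}
    (hrr : IsPlaceReductionAlong A π N rr)
    (f f' : ↥(Ow A π N)) (hf : redw A π N f ≠ 0) (hff' : redw A π N f = redw A π N f')
    {D D' : Divisor Kb ↥(laurentBaseChange Kb (modularFunctionFieldFull N))}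
    (hD : ∀ v, D v = v.ord (f : ↥(laurentBaseChange Kb (modularFunctionFieldFull N))))
    (hD' : ∀ v, D' v = v.ord (f' : ↥(laurentBaseChange Kb (modularFunctionFieldFull N)))) :
    Finsupp.mapDomain rr (heckeDiv N r D) = Finsupp.mapDomain rr (heckeDiv N r D') := by
  have hf' : redw A π N f' ≠ 0 := hff' ▸ hf
  obtain ⟨a, b, ha, hb, hab⟩ := exists_rep_of_redw_ne_zero f hf
  obtain ⟨a₁, b₁, ha₁, hb₁, hab₁⟩ := exists_rep_of_redw_ne_zero f' hf'
  have hf0 : (f : ↥(laurentBaseChange Kb (modularFunctionFieldFull N))) ≠ 0 := by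
    intro h0
    rw [h0, zero_mul] at hab
    exact toFL_ne_zero_of_red_ne_zero ha hab.symm
  have hf'0 : (f' : ↥(laurentBaseChange Kb (modularFunctionFieldFull N))) ≠ 0 := by
    intro h0
    rw [h0, zero_mul] at hab₁
    exact toFL_ne_zero_of_red_ne_zero ha₁ hab₁.symm
  -- the quotient `f / f'` is a Gauss one-unit
  have hq : (f : ↥(laurentBaseChange Kb (modularFunctionFieldFull N))) *
      (f' : ↥(laurentBaseChange Kb (modularFunctionFieldFull N)))⁻¹ * toFL A π N (b * a₁) =
      toFL A π N (a * b₁) := by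
    rw [map_mul, map_mul, ← hab, ← hab₁]
    field_simp
  have hred : red A π N (a * b₁) = red A π N (b * a₁) := by
    have h1 : red A π N a / red A π N b = red A π N a₁ / red A π N b₁ := by
      rw [← redw_eq f hb hab, ← redw_eq f' hb₁ hab₁, hff']
    rw [div_eq_div_iff hb hb₁] at h1
    rw [map_mul, map_mul, h1, mul_comm]
  have hne : red A π N (b * a₁) ≠ 0 := by
    rw [map_mul]
    exact mul_ne_zero hb ha₁
  have hDq : ∀ v : Place Kb ↥(laurentBaseChange Kb (modularFunctionFieldFull N)),
      (D - D') v = v.ord ((f : ↥(laurentBaseChange Kb (modularFunctionFieldFull N))) *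
        (f' : ↥(laurentBaseChange Kb (modularFunctionFieldFull N)))⁻¹) := by
    intro v
    rw [Finsupp.sub_apply, hD, hD', v.ord_mul hf0 (inv_ne_zero hf'0), v.ord_inv]
    ring
  have h0 := mapDomain_heckeDiv_oneUnit hr hrN hrep hπ hrr hred hne hq hDq
  rw [map_sub, Finsupp.mapDomain_sub, sub_eq_zero] at h0
  exact h0

end OneUnit

end Fermat.Agent.S15.A.HeckeRedA
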