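import Mathlib
import Fermat.Agent.S15.A.HeckeRedA
import Fermat.Agent.S18.NonSpecial
import Fermat.Agent.S18.A.RiemannBasic
import Fermat.Agent.S24.Ord

/-!
# PROJECT M (S15), block [A], (K-red) part B: `r_* T_r` factors through the reduction of places

`Ψ := r_* ∘ T_r : Div(F_L) → Div(F_k)` (`Psi`).

* `exists_pole_bound` : for every divisor `B` of `F_k` there is an effective divisor `M` of `F_L`
  with `Ψ (div f) + Ψ M ≥ 0` for EVERY Gauss unit `f` whose reduction lies in `L_k(B)` (lift a
  basis of the finite-dimensional space `L_k(B)`; `Ψ (div f)` depends only on the reduction of `f`,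
  part A).
* `Psi_single_eq_of_eq` : **if `P₁` and `P₂` have the same reduction then `Ψ P₁ = Ψ P₂`**
  (Riemann's theorem for `F_L`: `u_m` with `div u_m = m P₁ - (m + g) P₂ + E_m`; the reductions of the
  `u_m` all lie in `L_k(g Q̄)`, so `Ψ (div u_m)` is bounded independently of `m`).
-/

set_option autoImplicit false
set_option linter.unusedSectionVars false
set_option linter.style.haveILetI false
set_option synthInstance.maxHeartbeats 400000

noncomputable section

namespace Fermat.Agent.S15.A.HeckeRedB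

open ModularCurve HahnSeries AlgebraicCurve
open Fermat.Agent.S18.GaussFromH Fermat.Agent.S18.NonSpecial
open Fermat.Agent.S37.Hecke.Principal
open Fermat.Agent.S15.A.HeckeRedA

local notation "Kb" => AlgebraicClosure ℚ

attribute [local instance] Fermat.Agent.S18.A.Instances.hasPrincipalDivisors_bar

variable {N : ℕ} [NeZero N] {A : ValuationSubring Kb} {k : Type*} [Field k] {π : ↥A →+* k}
variable {r : ℕ} [NeZero r]

/-! ### generalities -/

theorem mapDomain_nonneg {α β : Type*} (f : α → β) {E : α →₀ ℤ} (hE : 0 ≤ E) :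
    0 ≤ Finsupp.mapDomain f E := by
  classical
  rw [Finsupp.mapDomain, Finsupp.sum]
  exact Finset.sum_nonneg fun a _ => Finsupp.single_nonneg.mpr (hE a)

/-- the pole part of a divisor -/
def polePart {α : Type*} (D : α →₀ ℤ) : α →₀ ℤ :=
  Finsupp.mapRange (fun n : ℤ => max (-n) 0) (by simp) D

theorem polePart_apply {α : Type*} (D : α →₀ ℤ) (a : α) : polePart D a = max (-D a) 0 := by
  rw [polePart, Finsupp.mapRange_apply]

theorem polePart_nonneg {α : Type*} (D : α →₀ ℤ) : 0 ≤ polePart D := by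
  intro a
  rw [polePart_apply]
  exact le_max_right _ _

/-! ### the map `Ψ` -/

variable (N r) in
/-- `Ψ = r_* ∘ T_r` -/
def Psi (rr : Place Kb ↥(laurentBaseChange Kb (modularFunctionFieldFull N)) →
      Place k ↥(modularFunctionFieldFullC k N)) :
    Divisor Kb ↥(laurentBaseChange Kb (modularFunctionFieldFull N)) →+
      Divisor k ↥(modularFunctionFieldFullC k N) :=
  (Finsupp.mapDomain.addMonoidHom rr).comp (heckeDiv N r)

variable {rr : Place Kb ↥(laurentBaseChange Kb (modularFunctionFieldFull N)) →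
      Place k ↥(modularFunctionFieldFullC k N)}

theorem Psi_apply (D : Divisor Kb ↥(laurentBaseChange Kb (modularFunctionFieldFull N))) :
    Psi N r rr D = Finsupp.mapDomain rr (heckeDiv N r D) := rfl

theorem Psi_nonneg {D : Divisor Kb ↥(laurentBaseChange Kb (modularFunctionFieldFull N))}
    (hD : 0 ≤ D) : 0 ≤ Psi N r rr D :=
  mapDomain_nonneg rr (heckeDiv_nonneg N r hD)

theorem degree_Psi (hr : r.Prime) (hrN : ¬ r ∣ N) (hdeg : ∀ P, (rr P).deg = P.deg)
    (D : Divisor Kb ↥(laurentBaseChange Kb (modularFunctionFieldFull N))) :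
    Divisor.degree (Psi N r rr D) = ((r : ℤ) + 1) * Divisor.degree D := by
  rw [Psi_apply, degree_mapDomain_of_deg_eq hdeg, degree_heckeDiv N r hr hrN]

/-! ### the uniform pole bound -/

set_option maxHeartbeats 1600000 in
/-- **the uniform pole bound** -/
theorem exists_pole_bound (hr : r.Prime) (hrN : ¬ r ∣ N) (hrep : HasRep A π N)
    (hπ : ∀ a : ↥A, ¬ IsUnit a → π a = 0) (hπs : Function.Surjective π)
    (hrr : IsPlaceReductionAlong A π N rr)
    (B : Divisor k ↥(modularFunctionFieldFullC k N))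
    [Module.Finite k (riemannRochSpace B)] :
    ∃ M : Divisor Kb ↥(laurentBaseChange Kb (modularFunctionFieldFull N)), 0 ≤ M ∧
      ∀ f : ↥(Ow A π N), redw A π N f ≠ 0 → redw A π N f ∈ riemannRochSpace B →
        ∀ D : Divisor Kb ↥(laurentBaseChange Kb (modularFunctionFieldFull N)),
          (∀ v, D v = v.ord (f : ↥(laurentBaseChange Kb (modularFunctionFieldFull N)))) →
            0 ≤ Psi N r rr D + Psi N r rr M := by
  classical
  set n := Module.finrank k (riemannRochSpace B) with hn
  set b : Module.Basis (Fin n) k (riemannRochSpace B) := Module.finBasis k (riemannRochSpace B) with hb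
  -- lifts of the basis
  have hlift : ∀ i : Fin n, ∃ F : ↥(Ow A π N), redw A π N F =
      ((b i : riemannRochSpace B) : ↥(modularFunctionFieldFullC k N)) :=
    fun i => redw_surjective hπs _
  choose F hF using hlift
  -- the pole divisors of the lifts
  have hdiv : ∀ i : Fin n, ∃ Mi : Divisor Kb ↥(laurentBaseChange Kb (modularFunctionFieldFull N)),
      0 ≤ Mi ∧ ∀ v : Place Kb ↥(laurentBaseChange Kb (modularFunctionFieldFull N)),
        (F i : ↥(laurentBaseChange Kb (modularFunctionFieldFull N))) = 0 ∨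
          -Mi v ≤ v.ord (F i : ↥(laurentBaseChange Kb (modularFunctionFieldFull N))) := by
    intro i
    by_cases h0 : (F i : ↥(laurentBaseChange Kb (modularFunctionFieldFull N))) = 0
    · exact ⟨0, le_rfl, fun v => Or.inl h0⟩
    · obtain ⟨Di, hDi, -⟩ := HasPrincipalDivisors.exists_divisor (K := Kb) _ h0
      refine ⟨polePart Di, polePart_nonneg Di, fun v => Or.inr ?_⟩
      rw [polePart_apply, hDi v]
      have := le_max_left (-(v.ord (F i : ↥(laurentBaseChange Kb (modularFunctionFieldFull N))))) 0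
      omega
  choose Mi hMi0 hMi using hdiv
  set M : Divisor Kb ↥(laurentBaseChange Kb (modularFunctionFieldFull N)) := ∑ i, Mi i with hM
  have hM0 : 0 ≤ M := Finset.sum_nonneg fun i _ => hMi0 i
  have hMi_le : ∀ i, Mi i ≤ M := fun i =>
    Finset.single_le_sum (f := Mi) (fun j _ => hMi0 j) (Finset.mem_univ i)
  have hFmem : ∀ i, (F i : ↥(laurentBaseChange Kb (modularFunctionFieldFull N))) ∈
      riemannRochSpace M := by
    intro i
    rw [mem_riemannRochSpace_iff]
    intro v
    rcases hMi i v with h | h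
    · exact Or.inl h
    · right
      have := Finsupp.le_def.mp (hMi_le i) v
      omega
  refine ⟨M, hM0, fun f hf hfB D hD => ?_⟩
  -- coordinates of the reduction, and their lifts
  set cb := b.repr ⟨redw A π N f, hfB⟩ with hcb
  have hcl : ∀ i : Fin n, ∃ c : ↥A, π c = cb i := fun i => hπs _
  choose c hc using hcl
  set f' : ↥(Ow A π N) :=
    ∑ i, (⟨algebraMap Kb ↥(laurentBaseChange Kb (modularFunctionFieldFull N)) (c i : Kb),
      algebraMap_mem_Ow (c i)⟩ : ↥(Ow A π N)) * F i with hf'
  have hredf' : redw A π N f' = redw A π N f := by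
    rw [hf', map_sum]
    have h1 : ∀ i : Fin n, redw A π N ((⟨algebraMap Kb
        ↥(laurentBaseChange Kb (modularFunctionFieldFull N)) (c i : Kb),
        algebraMap_mem_Ow (c i)⟩ : ↥(Ow A π N)) * F i) =
        cb i • ((b i : riemannRochSpace B) : ↥(modularFunctionFieldFullC k N)) := by
      intro i
      rw [map_mul, redw_algebraMap, hF, hc, Algebra.smul_def]
    rw [Finset.sum_congr rfl fun i _ => h1 i]
    have h2 := b.sum_repr ⟨redw A π N f, hfB⟩
    have h3 := congrArg (fun x : riemannRochSpace B =>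
      (x : ↥(modularFunctionFieldFullC k N))) h2
    simp only [Submodule.coe_sum, Submodule.coe_smul] at h3
    exact h3
  have hf'mem : (f' : ↥(laurentBaseChange Kb (modularFunctionFieldFull N))) ∈
      riemannRochSpace M := by
    rw [hf', AddSubmonoidClass.coe_finsetSum]
    refine Submodule.sum_mem _ fun i _ => ?_
    rw [Subring.coe_mul, ← Algebra.smul_def]
    exact Submodule.smul_mem _ _ (hFmem i)
  have hf'0 : (f' : ↥(laurentBaseChange Kb (modularFunctionFieldFull N))) ≠ 0 := by
    intro h0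
    apply hf
    rw [← hredf']
    have : f' = 0 := Subtype.ext h0
    rw [this, map_zero]
  obtain ⟨D', hD', -⟩ := HasPrincipalDivisors.exists_divisor (K := Kb) _ hf'0
  have hE0 : 0 ≤ D' + M := by
    intro v
    have h1 := ((mem_riemannRochSpace_iff.mp hf'mem) v).resolve_left hf'0
    rw [Finsupp.add_apply, hD' v]
    simp only [Finsupp.coe_zero, Pi.zero_apply]
    omega
  have h4 : Psi N r rr D = Psi N r rr D' := by
    rw [Psi_apply, Psi_apply]
    exact mapDomain_heckeDiv_eq_of_redw_eq hr hrN hrep hπ hrr f f' hf hredf'.symm hD hD'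
  rw [h4, ← map_add]
  exact Psi_nonneg hE0

/-! ### places with the same reduction -/

set_option maxHeartbeats 1600000 in
/-- **If `P₁` and `P₂` have the same reduction then `Ψ P₁ = Ψ P₂`.** -/
theorem Psi_single_eq_of_eq (hr : r.Prime) (hrN : ¬ r ∣ N) (hrep : HasRep A π N)
    (hπ : ∀ a : ↥A, ¬ IsUnit a → π a = 0) (hπs : Function.Surjective π)
    (hrr : IsPlaceReductionAlong A π N rr)
    {g : ℕ} (hR : RiemannHyp Kb ↥(laurentBaseChange Kb (modularFunctionFieldFull N)) g)
    (hfink : ∀ B : Divisor k ↥(modularFunctionFieldFullC k N),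
      Module.Finite k (riemannRochSpace B))
    (hdegk : ∀ Q : Place k ↥(modularFunctionFieldFullC k N), Q.deg = 1)
    {P₁ P₂ : Place Kb ↥(laurentBaseChange Kb (modularFunctionFieldFull N))}
    (hP : rr P₁ = rr P₂) :
    Psi N r rr (Finsupp.single P₁ 1) = Psi N r rr (Finsupp.single P₂ 1) := by
  classical
  ext Q
  by_contra hne
  set c₁ := Psi N r rr (Finsupp.single P₁ 1) Q with hc₁
  set c₂ := Psi N r rr (Finsupp.single P₂ 1) Q with hc₂
  set Qb := rr P₁ with hQb
  set B : Divisor k ↥(modularFunctionFieldFullC k N) := Finsupp.single Qb (g : ℤ) with hB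
  haveI := hfink B
  obtain ⟨M, hM0, hMb⟩ := exists_pole_bound (r := r) hr hrN hrep hπ hπs hrr B
  set K₀ : ℤ := Divisor.degree (Psi N r rr M) with hK₀
  have hΨM0 : 0 ≤ Psi N r rr M := Psi_nonneg hM0
  have hK₀0 : 0 ≤ K₀ := Fermat.Agent.S18.A.Riemann.degree_nonneg hΨM0
  have hr1 : (0 : ℤ) ≤ (r : ℤ) + 1 := by positivity
  have hg0 : (0 : ℤ) ≤ g := Int.natCast_nonneg g
  -- the divisor `D = (m + g) P₂ - m P₁` of degree `g`
  set m : ℤ := K₀ + ((r : ℤ) + 1) * g + g * |c₂| + 1 with hm
  set D : Divisor Kb ↥(laurentBaseChange Kb (modularFunctionFieldFull N)) :=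
    Finsupp.single P₂ (m + g) - Finsupp.single P₁ m with hD
  have hdegD : Divisor.degree D = g := by
    rw [hD, map_sub, Divisor.degree_single, Divisor.degree_single, hR.deg_one, hR.deg_one]
    push_cast; ring
  have hell : 0 < ell D := by
    have := riemann_ineq hR D
    rw [hdegD] at this
    omega
  have := hR.finite D
  have hnt : Nontrivial (riemannRochSpace D) := Module.nontrivial_of_finrank_pos hell
  obtain ⟨u, hu⟩ := exists_ne (0 : riemannRochSpace D)
  have hu0 : (u : ↥(laurentBaseChange Kb (modularFunctionFieldFull N))) ≠ 0 :=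
    fun h0 => hu (Subtype.ext h0)
  -- normalise `u` to a Gauss unit `v`
  obtain ⟨c, hc, v, huv⟩ := exists_const_mul_unit hrep _ hu0
  set f : ↥(Ow A π N) := ⟨((v : ↥(OwV A π N hrep)) :
    ↥(laurentBaseChange Kb (modularFunctionFieldFull N))), (v : ↥(OwV A π N hrep)).2⟩ with hf
  have hfv : redw A π N f ≠ 0 := by
    have h1 : redV A π N hrep (v : ↥(OwV A π N hrep)) ≠ 0 := by
      rw [Ne, redV_eq_zero_iff]
      exact not_not.mpr v.isUnit
    exact h1
  have hf0 : (f : ↥(laurentBaseChange Kb (modularFunctionFieldFull N))) ≠ 0 := by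
    intro h0
    apply hfv
    have : f = 0 := Subtype.ext h0
    rw [this, map_zero]
  obtain ⟨Dv, hDv, hdegDv⟩ := HasPrincipalDivisors.exists_divisor (K := Kb) _ hf0
  -- `ord u = ord v`
  have hordu : ∀ w : Place Kb ↥(laurentBaseChange Kb (modularFunctionFieldFull N)),
      w.ord (u : ↥(laurentBaseChange Kb (modularFunctionFieldFull N))) = Dv w := by
    intro w
    have hc0 : algebraMap Kb ↥(laurentBaseChange Kb (modularFunctionFieldFull N)) c ≠ 0 := by
      rwa [Ne, map_eq_zero]
    rw [huv, w.ord_mul hc0 hf0, Fermat.Agent.S24.Ord.ord_algebraMap, zero_add, hDv w]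
  -- `E := div u + D ≥ 0` of degree `g`
  have hE0 : 0 ≤ Dv + D := by
    intro w
    have h1 := ((mem_riemannRochSpace_iff.mp u.2) w).resolve_left hu0
    rw [Finsupp.add_apply, ← hordu w]
    simp only [Finsupp.coe_zero, Pi.zero_apply]
    omega
  have hdegE : Divisor.degree (Dv + D) = g := by rw [map_add, hdegDv, hdegD, zero_add]
  -- the reduction of `v` lies in `L_k(g Q̄)`
  have hrD : Finsupp.mapDomain rr D = Finsupp.single Qb (g : ℤ) := by
    rw [hD, Finsupp.mapDomain_sub, Finsupp.mapDomain_single, Finsupp.mapDomain_single, ← hP,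
      ← Finsupp.single_sub]
    congr 1
    ring
  have hfB : redw A π N f ∈ riemannRochSpace B := by
    rw [mem_riemannRochSpace_iff]
    intro Q'
    right
    rw [← mapDomain_div_eq hrr f hfv Dv hDv Q', hB]
    have h1 : 0 ≤ Finsupp.mapDomain rr (Dv + D) := mapDomain_nonneg rr hE0
    have h2 := h1 Q'
    rw [Finsupp.mapDomain_add, Finsupp.add_apply, hrD] at h2
    simp only [Finsupp.coe_zero, Pi.zero_apply] at h2
    omega
  -- the bound on `Ψ (div v)`
  have hb1 : 0 ≤ Psi N r rr Dv + Psi N r rr M := hMb f hfv hfB Dv hDv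
  have hdeg0 : Divisor.degree (Psi N r rr Dv) = 0 := by
    rw [degree_Psi hr hrN hrr.1, hdegDv, mul_zero]
  have hb2 : (Psi N r rr Dv + Psi N r rr M) Q ≤ K₀ := by
    have := Fermat.Agent.S18.A.Riemann.apply_le_degree hdegk hb1 Q
    rwa [map_add, hdeg0, zero_add] at this
  have hb3 : (Psi N r rr M) Q ≤ K₀ := Fermat.Agent.S18.A.Riemann.apply_le_degree hdegk hΨM0 Q
  have hb4 : 0 ≤ (Psi N r rr M) Q := hΨM0 Q
  have hb5 : 0 ≤ (Psi N r rr Dv + Psi N r rr M) Q := hb1 Q
  rw [Finsupp.add_apply] at hb2 hb5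
  -- the effective part
  have hΨE0 : 0 ≤ Psi N r rr (Dv + D) := Psi_nonneg hE0
  have hb6 : 0 ≤ (Psi N r rr (Dv + D)) Q := hΨE0 Q
  have hb7 : (Psi N r rr (Dv + D)) Q ≤ ((r : ℤ) + 1) * g := by
    have := Fermat.Agent.S18.A.Riemann.apply_le_degree hdegk hΨE0 Q
    rwa [degree_Psi hr hrN hrr.1, hdegE] at this
  -- evaluate
  have hΨD : (Psi N r rr D) Q = (m + g) * c₂ - m * c₁ := by
    rw [hD, map_sub, Finsupp.sub_apply]
    have h1 : Psi N r rr (Finsupp.single P₂ (m + g)) =
        (m + g) • Psi N r rr (Finsupp.single P₂ 1) := by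
      rw [← map_zsmul, Finsupp.smul_single, smul_eq_mul, mul_one]
    have h2 : Psi N r rr (Finsupp.single P₁ m) = m • Psi N r rr (Finsupp.single P₁ 1) := by
      rw [← map_zsmul, Finsupp.smul_single, smul_eq_mul, mul_one]
    rw [h1, h2, Finsupp.smul_apply, Finsupp.smul_apply, smul_eq_mul, smul_eq_mul]
  rw [map_add, Finsupp.add_apply, hΨD] at hb6 hb7
  -- `|m (c₂ - c₁)| ≤ K₀ + (r + 1) g + g |c₂|`, against the choice of `m`
  have hd : (1 : ℤ) ≤ |c₂ - c₁| := Int.one_le_abs (sub_ne_zero.2 (Ne.symm hne))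
  have hm0 : 0 < m := by
    have : 0 ≤ ((r : ℤ) + 1) * g := mul_nonneg hr1 hg0
    have : 0 ≤ (g : ℤ) * |c₂| := mul_nonneg hg0 (abs_nonneg _)
    omega
  have hkey : |m * (c₂ - c₁)| ≤ K₀ + ((r : ℤ) + 1) * g + g * |c₂| := by
    have h1 : m * (c₂ - c₁) = ((m + g) * c₂ - m * c₁) - g * c₂ := by ring
    rw [h1, abs_le]
    have hgc : |(g : ℤ) * c₂| = g * |c₂| := by rw [abs_mul, abs_of_nonneg hg0]
    have := abs_le.mp (le_of_eq hgc)
    constructor <;> linarith [this.1, this.2]
  have h4 : |m * (c₂ - c₁)| = m * |c₂ - c₁| := by rw [abs_mul, abs_of_pos hm0]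
  rw [h4] at hkey
  nlinarith

end Fermat.Agent.S15.A.HeckeRedB
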