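import Mathlib
import Fermat.Agent.S15.A.HeckeRedB
import Fermat.Agent.S15.A.Frame
import Fermat.Agent.S18.GaussFromHBar
import Fermat.Agent.S18.ResidueBasics
import Fermat.Agent.S18.A.RiemannFk
import Fermat.Agent.S18.B.SeparableFk
import Fermat.Agent.S37.Cusps.CuspCountFinal
import Fermat.Prelude.Def_ModularCurve_HeckeModule

/-!
# PROJECT M (S15), block [A], (K-red) part C: the kernel of the reduction is Hecke stable

`reductionModL_heckeOperatorBar_eq_zero` : for a valuation ring `A` of `ℚ̄` over a prime `l ∤ N` and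
ANY prime `r ∤ N` (also `r = l`): `reductionModL A N z = 0 → reductionModL A N (T_r z) = 0`.
`seamKred N : SeamKred N` is the seam (K-red) of `S15/A/Frame.lean`.

Proof: `z = cl(D)` with `r_* D = div w` principal; lift `w` to a Gauss unit `f` (`redw_surjective`),
then `D' = D - div f` has `r_* D' = 0` AS A DIVISOR, and `r_* T_r D' = 0` because `r_* T_r P` only
depends on the reduction of the place `P` (part B).
-/

set_option autoImplicit false
set_option linter.unusedSectionVars false
set_option linter.style.haveILetI false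
set_option synthInstance.maxHeartbeats 400000

noncomputable section

namespace Fermat.Agent.S15.A.HeckeRedC

open ModularCurve HahnSeries AlgebraicCurve
open Fermat.Agent.S18.GaussFromH Fermat.Agent.S18.NonSpecial
open Fermat.Agent.S37.Hecke.Principal Fermat.Agent.S37.Hecke.Integral Fermat.Agent.S37.Hecke.Inputs
open Fermat.Agent.S15.A.HeckeRedA Fermat.Agent.S15.A.HeckeRedB

local notation "Kb" => AlgebraicClosure ℚ

attribute [local instance] Fermat.Agent.S18.A.Instances.hasPrincipalDivisors_bar

section General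

variable {N : ℕ} [NeZero N] {k : Type*} [Field k] {r : ℕ} [NeZero r]
variable {rr : Place Kb ↥(laurentBaseChange Kb (modularFunctionFieldFull N)) →
      Place k ↥(modularFunctionFieldFullC k N)}

/-- if `Ψ P` only depends on the reduction of `P`, then `Ψ` kills the divisors whose reduction is
zero -/
theorem Psi_eq_zero_of_mapDomain_eq_zero
    (hsingle : ∀ P₁ P₂, rr P₁ = rr P₂ →
      Psi N r rr (Finsupp.single P₁ 1) = Psi N r rr (Finsupp.single P₂ 1))
    (D : Divisor Kb ↥(laurentBaseChange Kb (modularFunctionFieldFull N)))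
    (hD : Finsupp.mapDomain rr D = 0) : Psi N r rr D = 0 := by
  classical
  set G : Place k ↥(modularFunctionFieldFullC k N) → Divisor k ↥(modularFunctionFieldFullC k N) :=
    fun Q => if h : ∃ P, rr P = Q then Psi N r rr (Finsupp.single h.choose 1) else 0 with hG
  have hGr : ∀ P, Psi N r rr (Finsupp.single P 1) = G (rr P) := by
    intro P
    have h : ∃ P', rr P' = rr P := ⟨P, rfl⟩
    rw [hG]
    simp only [dif_pos h]
    exact hsingle _ _ h.choose_spec.symm
  have h1 : Psi N r rr D = D.sum fun P n => n • G (rr P) := by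
    conv_lhs => rw [← Finsupp.sum_single D]
    rw [map_finsuppSum]
    refine Finsupp.sum_congr fun P _ => ?_
    rw [← hGr P, ← map_zsmul, Finsupp.smul_single, smul_eq_mul, mul_one]
  have h2 : (Finsupp.mapDomain rr D).sum (fun Q n => n • G Q) =
      D.sum fun P n => n • G (rr P) :=
    Finsupp.sum_mapDomain_index (fun _ => zero_smul _ _) (fun _ _ _ => add_smul _ _ _)
  rw [h1, ← h2, hD, Finsupp.sum_zero_index]

end General

section Final

variable (N : ℕ) [NeZero N]

set_option maxHeartbeats 1600000 in
/-- **The kernel of the reduction at `A` is stable under `T_r`, for every prime `r ∤ N`.** -/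
theorem reductionModL_heckeOperatorBar_eq_zero {l : ℕ} [Fact l.Prime] (hlN : ¬ l ∣ N)
    (A : ValuationSubring Kb) (hA : A.LiesOverPrime l) (r : Nat.Primes) (hrN : ¬ (r : ℕ) ∣ N)
    (z : JZero N) (hz : reductionModL A N z = 0) :
    reductionModL A N (heckeOperatorBar N r z) = 0 := by
  haveI : NeZero (r : ℕ) := ⟨r.2.ne_zero⟩
  haveI := hasPrincipalDivisors_level N (r : ℕ)
  have h := Fermat.Agent.S37.Cusps.CuspCountFinal.reductionInputsModL N A hA hlN
  have hrr := isPlaceReductionModL_placeReductionModL h
  have hrep := Fermat.Agent.S18.GaussFromHBar.hasRepModL h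
  have hπ := Fermat.Agent.S18.GaussFromHBar.residue_eq_zero_of_not_isUnit (A := A)
  have hπs : Function.Surjective (IsLocalRing.residue ↥A) := IsLocalRing.residue_surjective
  haveI : IsAlgClosed (IsLocalRing.ResidueField ↥A) :=
    Fermat.Agent.S18.ResidueBasics.isAlgClosed_residueField A
  obtain ⟨g, hR⟩ := Fermat.Agent.S18.A.RiemannFk.exists_riemannHyp_FL N
  obtain ⟨gk, hRk⟩ := Fermat.Agent.S18.A.RiemannFk.exists_riemannHyp_Fk'
    (IsLocalRing.ResidueField ↥A) N
    (Fermat.Agent.S18.B.SeparableFk.isSeparable_jk (IsLocalRing.ResidueField ↥A) N)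
  have hdegk : ∀ Q : Place (IsLocalRing.ResidueField ↥A)
      ↥(modularFunctionFieldFullC (IsLocalRing.ResidueField ↥A) N), Q.deg = 1 := fun Q =>
    Fermat.Agent.S18.A.Instances.deg_one
      (Fermat.Agent.S18.B.FkBasics.isFF (IsLocalRing.ResidueField ↥A) N) Q
  have hsingle := fun P₁ P₂ (hP : placeReductionModL h P₁ = placeReductionModL h P₂) =>
    Psi_single_eq_of_eq (r := (r : ℕ)) r.2 hrN hrep hπ hπs hrr hR hRk.finite hdegk hP
  obtain ⟨D, rfl⟩ := Pic0.mk_surjective z
  rw [reductionModL_mk h] at hz
  -- the reduction of `D` is principal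
  have hprin : (reductionDegZeroAlong (placeReductionModL h) hrr.1 D :
      Divisor (IsLocalRing.ResidueField ↥A)
        ↥(modularFunctionFieldFullC (IsLocalRing.ResidueField ↥A) N)) ∈
      Divisor.principal (K := IsLocalRing.ResidueField ↥A)
        (F := ↥(modularFunctionFieldFullC (IsLocalRing.ResidueField ↥A) N)) := by
    have h1 := (QuotientAddGroup.eq_zero_iff
      (reductionDegZeroAlong (placeReductionModL h) hrr.1 D)).mp hz
    exact AddSubgroup.mem_addSubgroupOf.mp h1
  rw [coe_reductionDegZeroAlong] at hprin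
  obtain ⟨w, hw0, hw⟩ := hprin
  -- lift `w` to a Gauss unit
  obtain ⟨f, hf⟩ := redw_surjective (A := A) (N := N) hπs w
  have hfw : redw A (IsLocalRing.residue ↥A) N f ≠ 0 := hf ▸ hw0
  have hf0 : (f : ↥(laurentBaseChange Kb (modularFunctionFieldFull N))) ≠ 0 := by
    intro h0
    apply hfw
    have : f = 0 := Subtype.ext h0
    rw [this, map_zero]
  obtain ⟨Df, hDf, hdegDf⟩ := HasPrincipalDivisors.exists_divisor (K := Kb) _ hf0
  have hrDf : Finsupp.mapDomain (placeReductionModL h) Df =
      Finsupp.mapDomain (placeReductionModL h)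
        (D : Divisor Kb ↥(laurentBaseChange Kb (modularFunctionFieldFull N))) := by
    ext Q
    rw [mapDomain_div_eq hrr f hfw Df hDf Q, hf, hw Q]
  -- `D' := D - div f`
  set Df0 : Divisor.degZero (K := Kb) (F := ↥(laurentBaseChange Kb (modularFunctionFieldFull N))) :=
    ⟨Df, Divisor.mem_degZero.mpr hdegDf⟩ with hDf0
  have hmk0 : Pic0.mk Df0 = 0 := by
    refine (QuotientAddGroup.eq_zero_iff _).mpr ?_
    show Df ∈ Divisor.principal (K := Kb)
      (F := ↥(laurentBaseChange Kb (modularFunctionFieldFull N)))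
    exact ⟨_, hf0, hDf⟩
  have hmk : Pic0.mk D = Pic0.mk (D - Df0) := by
    have : D = (D - Df0) + Df0 := by abel
    conv_lhs => rw [this, Pic0.mk_add, hmk0, add_zero]
  rw [hmk, heckeOperatorBar_mk N r (D - Df0), reductionModL_mk h]
  have h0 : reductionDegZeroAlong (placeReductionModL h) hrr.1
      (Pic0.degZeroCorrespondence (heckeBetaBar Kb N r) (heckeAlphaBar Kb N r)
        (betaIntegral N r) (alphaIntegral N r) (fundamentalIdentityAlong_beta N r)
        (D - Df0)) = 0 := by
    apply Subtype.ext
    rw [coe_reductionDegZeroAlong, coe_degZeroCorrespondence]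
    refine Psi_eq_zero_of_mapDomain_eq_zero (r := (r : ℕ)) hsingle _ ?_
    rw [AddSubgroupClass.coe_sub, Finsupp.mapDomain_sub, hDf0, hrDf, sub_self]
  rw [h0]
  rfl

/-- **the seam (K-red)** -/
theorem seamKred : Fermat.Agent.S15.A.Frame.SeamKred N := by
  intro l _ hlN A hA r _ hrN z hz
  exact reductionModL_heckeOperatorBar_eq_zero N hlN A hA r hrN z hz

end Final

end Fermat.Agent.S15.A.HeckeRedC
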