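import Mathlib
import Fermat.Agent.S15.A.Frame
import Fermat.Agent.S15.A.Glue
import Fermat.Agent.S15.A.HeckeRedC
import Fermat.Agent.S18
import Fermat.Agent.S37.Cusps.CuspCountFinal
import Fermat.Agent.Lib.FrobeniusExists

/-!
# PROJECT M (S15), block [A]: S15 from the seams

`mazur_of_seams` : the statement of S15 from the seams (C-0), (C-E), (C-L) weak form, (K-u) and
(STAR) for ANY set `S` of excluded primes containing `p`, of `S15/A/Frame.lean` (the seam (K-red) is
the theorem `S15/A/HeckeRedC.reductionModL_heckeOperatorBar_eq_zero`), on the frame of S18 (injectivity of the reduction on prime-to-`λ` torsion at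
`λ = 2, 3, ℓ`) and of S37 (`ReductionInputsModL` at every prime not dividing the level).
-/

set_option autoImplicit false
set_option linter.unusedSectionVars false
set_option linter.style.haveILetI false

noncomputable section

namespace Fermat.Agent.S15.A.Top

open AlgebraicCurve ModularCurve WeierstrassCurve WeierstrassCurve.Affine
open Fermat.Agent.S15.A.Frame

local notation "Kb" => AlgebraicClosure ℚ
local notation "GQ" => (AlgebraicClosure ℚ ≃ₐ[ℚ] AlgebraicClosure ℚ)

section Frame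

variable {N : ℕ} [NeZero N]

/-- the reduction of `(x) - (y)` vanishes when `x` and `y` have the same reduction -/
theorem reductionModL_diffClass_eq_zero {A : ValuationSubring Kb} (h : ReductionInputsModL A N)
    {x y : Place Kb (modularFunctionFieldBar N)}
    (hxy : placeReductionModL h x = placeReductionModL h y) :
    reductionModL A N (diffClass x y) = 0 := by
  rw [diffClass, reductionModL_mk h]
  have h0 : reductionDegZeroAlong (placeReductionModL h)
      (isPlaceReductionModL_placeReductionModL h).1 (diffDiv x y) = 0 := by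
    apply Subtype.ext
    rw [coe_reductionDegZeroAlong]
    show Finsupp.mapDomain (placeReductionModL h) (Finsupp.single x 1 - Finsupp.single y 1) = 0
    rw [Finsupp.mapDomain_sub, Finsupp.mapDomain_single, Finsupp.mapDomain_single, hxy, sub_self]
  rw [h0]
  rfl

/-- `(x) - (y)` is a rational class when `x` and `y` are rational places -/
theorem diffClass_mem_JQ {x y : Place Kb (modularFunctionFieldBar N)} (hx : IsRatPlace N x)
    (hy : IsRatPlace N y) : diffClass x y ∈ JQ N := by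
  intro σ
  show arithmeticGalois (modularFunctionFieldFull N) σ • Pic0.mk (diffDiv x y) = _
  rw [SemilinearAut.pic0_smul_mk]
  refine congrArg Pic0.mk (Subtype.ext ?_)
  rw [SemilinearAut.coe_degZeroSMulHom]
  show arithmeticGalois (modularFunctionFieldFull N) σ • (Finsupp.single x 1 - Finsupp.single y 1)
    = Finsupp.single x 1 - Finsupp.single y 1
  rw [smul_sub, SemilinearAut.smul_single, SemilinearAut.smul_single, hx σ, hy σ]

/-- `(x) - (c0)` plus `(c0) - (∞)` is `(x) - (∞)` -/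
theorem diffClass_add (x y z : Place Kb (modularFunctionFieldBar N)) :
    diffClass x y + diffClass y z = diffClass x z := by
  rw [diffClass, diffClass, diffClass, ← Pic0.mk_add]
  refine congrArg Pic0.mk (Subtype.ext ?_)
  show (Finsupp.single x 1 - Finsupp.single y 1) + (Finsupp.single y 1 - Finsupp.single z 1)
    = Finsupp.single x 1 - Finsupp.single z 1
  abel

/-- the elements of the Hecke ring away from `S` preserve the kernel of the reduction at `A`, as
soon as `S` contains the primes dividing the level (`S15/A/HeckeRedC`: the kernel is stable under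
`T_r` for EVERY prime `r ∤ N`, the residue characteristic included) -/
theorem heckeRing_stable {l : ℕ} [Fact l.Prime] (hlN : ¬ l ∣ N)
    (A : ValuationSubring Kb) (hA : A.LiesOverPrime l) (S : Set ℕ)
    (hNS : ∀ r : ℕ, r.Prime → r ∣ N → r ∈ S)
    {t : Module.End ℤ (JZero N)} (ht : t ∈ heckeRing N S) (z : JZero N)
    (hz : reductionModL A N z = 0) : reductionModL A N (t z) = 0 := by
  induction ht using Subring.closure_induction generalizing z with
  | mem T hT =>
    obtain ⟨r, hrS, rfl⟩ := hT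
    exact Fermat.Agent.S15.A.HeckeRedC.reductionModL_heckeOperatorBar_eq_zero N hlN A hA r
      (fun h => hrS (hNS r r.2 h)) z hz
  | zero => rw [LinearMap.zero_apply, map_zero]
  | one => rwa [Module.End.one_apply]
  | add T T' _ _ hT hT' => rw [LinearMap.add_apply, map_add, hT z hz, hT' z hz, add_zero]
  | neg T _ hT => rw [LinearMap.neg_apply, map_neg, hT z hz, neg_zero]
  | mul T T' _ _ hT hT' =>
    rw [Module.End.mul_apply]
    exact hT _ (hT' z hz)

end Frame

/-- **S15 from the seams of block [A].** -/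
theorem mazur_of_seams
    {p : ℕ} (hp : p.Prime) (hp' : p ∉ ({2, 3, 5, 7, 13} : Finset ℕ))
    (W : WeierstrassCurve ℤ)
    (Q : ((W.map (Int.castRingHom ℚ))⁄(AlgebraicClosure ℚ)).Point)
    (h2Δ : (2 : ℤ) ∣ W.Δ) (h2c₄ : ¬ (2 : ℤ) ∣ W.c₄)
    (h2 : ∀ A : ValuationSubring (AlgebraicClosure ℚ), A.LiesOverPrime 2 →
      ¬ W.InZeroComponentAt A Q)
    (h3Δ : (3 : ℤ) ∣ W.Δ) (h3c₄ : ¬ (3 : ℤ) ∣ W.c₄)
    (h3 : ∀ A : ValuationSubring (AlgebraicClosure ℚ), A.LiesOverPrime 3 →
      ¬ W.InZeroComponentAt A Q)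
    {ℓ : ℕ} (hℓ : ℓ.Prime) (hℓp : ℓ ≠ p) (hℓΔ : (ℓ : ℤ) ∣ W.Δ) (hℓc₄ : ¬ (ℓ : ℤ) ∣ W.c₄)
    (A : ValuationSubring (AlgebraicClosure ℚ)) (hA : A.LiesOverPrime ℓ)
    (hC0 : haveI : NeZero p := ⟨hp.ne_zero⟩; SeamC0 p)
    (hCE : haveI : NeZero p := ⟨hp.ne_zero⟩; SeamCE p W Q)
    (hCL : SeamCLw p W Q)
    (hKu : haveI : NeZero p := ⟨hp.ne_zero⟩; SeamKu p)
    (S : Set ℕ) (hpS : p ∈ S)
    (hStar : haveI : NeZero p := ⟨hp.ne_zero⟩;
      ∀ c0 : Place Kb (modularFunctionFieldBar p), IsCuspZero p c0 →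
        SeamStar p S (diffClass c0 (cuspInf p))) :
    ¬ W.InZeroComponentAt A Q := by
  have : NeZero p := ⟨hp.ne_zero⟩
  intro hin
  -- arithmetic of the primes
  have hp2 : p ≠ 2 := fun h => hp' (by simp [h])
  have hp3 : p ≠ 3 := fun h => hp' (by simp [h])
  have hp5 : p ≠ 5 := fun h => hp' (by simp [h])
  have hp7 : p ≠ 7 := fun h => hp' (by simp [h])
  have hℓ2 : ℓ ≠ 2 := fun h => h2 A (h ▸ hA) hin
  have hℓ3 : ℓ ≠ 3 := fun h => h3 A (h ▸ hA) hin
  have hp13 : p ≠ 13 := fun h => hp' (by simp [h])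
  have hp11 : 11 ≤ p := by
    by_contra hlt
    push Not at hlt
    have hp1 := hp.two_le
    interval_cases p
    · exact hp2 rfl
    · exact hp3 rfl
    · exact absurd hp (by decide)
    · exact hp5 rfl
    · exact absurd hp (by decide)
    · exact hp7 rfl
    · exact absurd hp (by decide)
    · exact absurd hp (by decide)
    · exact absurd hp (by decide)
  have hnotdvd : ∀ {r : ℕ}, r.Prime → r ≠ p → ¬ r ∣ p := fun hr hrp h =>
    hrp ((Nat.prime_dvd_prime_iff_eq hr hp).mp h)
  -- `ℓ ∤ p - 1`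
  have hℓp1 : ¬ ℓ ∣ p - 1 := hCL ℓ hℓ hℓ2 hℓp hℓΔ hℓc₄ A hA hin
  -- valuation rings over `2` and `3`
  obtain ⟨A2, hA2⟩ := Fermat.Agent.Lib.FrobeniusExists.exists_valuationSubring_liesOverPrime
    (L := Kb) 2 Nat.prime_two
  obtain ⟨A3, hA3⟩ := Fermat.Agent.Lib.FrobeniusExists.exists_valuationSubring_liesOverPrime
    (L := Kb) 3 Nat.prime_three
  haveI : Fact (2 : ℕ).Prime := ⟨Nat.prime_two⟩
  haveI : Fact (3 : ℕ).Prime := ⟨Nat.prime_three⟩
  haveI : Fact ℓ.Prime := ⟨hℓ⟩
  have h2p : ¬ 2 ∣ p := hnotdvd Nat.prime_two (Ne.symm hp2)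
  have h3p : ¬ 3 ∣ p := hnotdvd Nat.prime_three (Ne.symm hp3)
  have hℓp' : ¬ ℓ ∣ p := hnotdvd hℓ hℓp
  have hR2 := Fermat.Agent.S37.Cusps.CuspCountFinal.reductionInputsModL p A2 hA2 h2p
  have hR3 := Fermat.Agent.S37.Cusps.CuspCountFinal.reductionInputsModL p A3 hA3 h3p
  have hRℓ := Fermat.Agent.S37.Cusps.CuspCountFinal.reductionInputsModL p A hA hℓp'
  -- the cusp `0`, the point `x`, the Hecke element `t`
  obtain ⟨c0, hc0, hc0rat, -⟩ := hC0
  obtain ⟨x, hxrat, hx⟩ := hCE
  obtain ⟨t, ht, htors, htc⟩ := hStar c0 hc0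
  have hNS : ∀ r : ℕ, r.Prime → r ∣ p → r ∈ S := by
    intro r hr hrp
    have : r = p := (Nat.prime_dvd_prime_iff_eq hr hp).mp hrp
    rw [this]
    exact hpS
  -- the reductions of `x`
  have hx2 := (hx 2 (Ne.symm hp2) (by exact_mod_cast h2Δ) (by exact_mod_cast h2c₄) A2 hA2 hR2 c0
    hc0).1 (h2 A2 hA2)
  have hx3 := (hx 3 (Ne.symm hp3) (by exact_mod_cast h3Δ) (by exact_mod_cast h3c₄) A3 hA3 hR3 c0
    hc0).1 (h3 A3 hA3)
  have hxℓ := (hx ℓ hℓp hℓΔ hℓc₄ A hA hRℓ c0 hc0).2 hin
  -- the glue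
  refine htc (Fermat.Agent.S15.A.Glue.glue (reductionModL A2 p) (reductionModL A3 p)
    (reductionModL A p) ℓ
    (fun m z hm hmz hz => Fermat.Agent.S18.result p h2p A2 hA2 hR2 m hm z hmz hz)
    (fun m z hm hmz hz => Fermat.Agent.S18.result p h3p A3 hA3 hR3 m hm z hmz hz)
    (fun m z hm hmz hz => Fermat.Agent.S18.result p hℓp' A hA hRℓ m hm z hmz hz)
    t.toAddMonoidHom
    (fun z hz => heckeRing_stable h2p A2 hA2 S hNS ht z hz)
    (fun z hz => heckeRing_stable h3p A3 hA3 S hNS ht z hz)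
    (fun z hz => heckeRing_stable hℓp' A hA S hNS ht z hz)
    (diffClass x c0) (diffClass c0 (cuspInf p))
    (htors _ (diffClass_mem_JQ hxrat hc0rat))
    (reductionModL_diffClass_eq_zero hR2 hx2) (reductionModL_diffClass_eq_zero hR3 hx3)
    (by rw [diffClass_add]; exact reductionModL_diffClass_eq_zero hRℓ hxℓ)
    (p - 1) hℓp1 (hKu c0 hc0))

end Fermat.Agent.S15.A.Top
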