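import Mathlib
import Fermat.Agent.S15.A.Top
import Fermat.Agent.S15.G.CuspSeams
import Fermat.Agent.S15.E2.SeamCL
import Fermat.Agent.S15.E2.SeamCE

/-!
# PROJECT M (S15), block [A]: the assembly

`mazur_of_CE_star` : the statement of S15 from the two seams (C-E) (block [E]) and (STAR) (blocks
[D] + [K] + [S] + (K-P)), the latter in the shape of the conclusion of
`S15/D/ToStar.seamStar_of_descent` (for the set `{p}` of excluded primes, at every prime `P`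
dividing `p - 1`).  The seams (C-0), (K-u) are `S15/G/CuspSeams`, the seam (C-L) is
`S15/E2/SeamCL`, the seam (K-red) is `S15/A/HeckeRedC`.

`mazur_of_star` : the same with (C-E) discharged by `S15/E2/SeamCE.seamCE`: S15 from (STAR) alone.
-/

set_option autoImplicit false
set_option linter.unusedSectionVars false
set_option linter.style.haveILetI false

noncomputable section

namespace Fermat.Agent.S15.A.Assemble

open AlgebraicCurve ModularCurve WeierstrassCurve WeierstrassCurve.Affine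
open Fermat.Agent.S15.A.Frame

local notation "Kb" => AlgebraicClosure ℚ
local notation "GQ" => (AlgebraicClosure ℚ ≃ₐ[ℚ] AlgebraicClosure ℚ)

/-- a nonzero element killed by `n > 0`: a prime `P ∣ n` and a multiple `m` of `P` killing `c`
with `(m / P) • c ≠ 0` (`m` the order of `c`, `P` a prime factor of it) -/
theorem exists_prime_dvd_order {G : Type*} [AddCommGroup G] {c : G} {n : ℕ} (hn : 0 < n)
    (hc : c ≠ 0) (hnc : n • c = 0) :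
    ∃ P m : ℕ, P.Prime ∧ P ∣ n ∧ m • c = 0 ∧ P ∣ m ∧ (m / P) • c ≠ 0 := by
  have hdvd : addOrderOf c ∣ n := addOrderOf_dvd_of_nsmul_eq_zero hnc
  have hpos : 0 < addOrderOf c := Nat.pos_of_dvd_of_pos hdvd hn
  have hne1 : addOrderOf c ≠ 1 := fun h => hc (AddMonoid.addOrderOf_eq_one_iff.mp h)
  have hP : (addOrderOf c).minFac.Prime := Nat.minFac_prime hne1
  have hPm : (addOrderOf c).minFac ∣ addOrderOf c := Nat.minFac_dvd _
  refine ⟨(addOrderOf c).minFac, addOrderOf c, hP, hPm.trans hdvd, addOrderOf_nsmul_eq_zero c,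
    hPm, fun h0 => ?_⟩
  have hlt : addOrderOf c / (addOrderOf c).minFac < addOrderOf c :=
    Nat.div_lt_self hpos hP.one_lt
  have hqpos : 0 < addOrderOf c / (addOrderOf c).minFac :=
    Nat.div_pos (Nat.le_of_dvd hpos hPm) hP.pos
  have hle : addOrderOf c ≤ addOrderOf c / (addOrderOf c).minFac :=
    Nat.le_of_dvd hqpos (addOrderOf_dvd_of_nsmul_eq_zero h0)
  omega

/-- **S15 from (C-E) and (STAR).** -/
theorem mazur_of_CE_star
    {p : ℕ} (hp : p.Prime) (hp' : p ∉ ({2, 3, 5, 7, 13} : Finset ℕ))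
    (W : WeierstrassCurve ℤ) (hΔ : W.Δ ≠ 0)
    (Q : ((W.map (Int.castRingHom ℚ))⁄(AlgebraicClosure ℚ)).Point)
    (hQfix : ∀ σ : AlgebraicClosure ℚ ≃ₐ[ℚ] AlgebraicClosure ℚ, σ • Q = Q)
    (hQord : addOrderOf Q = p)
    (h2Δ : (2 : ℤ) ∣ W.Δ) (h2c₄ : ¬ (2 : ℤ) ∣ W.c₄)
    (h2 : ∀ A : ValuationSubring (AlgebraicClosure ℚ), A.LiesOverPrime 2 →
      ¬ W.InZeroComponentAt A Q)
    (h3Δ : (3 : ℤ) ∣ W.Δ) (h3c₄ : ¬ (3 : ℤ) ∣ W.c₄)
    (h3 : ∀ A : ValuationSubring (AlgebraicClosure ℚ), A.LiesOverPrime 3 →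
      ¬ W.InZeroComponentAt A Q)
    {ℓ : ℕ} (hℓ : ℓ.Prime) (hℓp : ℓ ≠ p) (hℓΔ : (ℓ : ℤ) ∣ W.Δ) (hℓc₄ : ¬ (ℓ : ℤ) ∣ W.c₄)
    (A : ValuationSubring (AlgebraicClosure ℚ)) (hA : A.LiesOverPrime ℓ)
    (hCE : haveI : NeZero p := ⟨hp.ne_zero⟩; SeamCE p W Q)
    (hStar : haveI : NeZero p := ⟨hp.ne_zero⟩;
      ∀ P : ℕ, P.Prime → P ∣ p - 1 → ∀ c : JZero p, (∀ σ : GQ, σ • c = c) →
        ∀ m : ℕ, m • c = 0 → P ∣ m → (m / P) • c ≠ 0 → SeamStar p {p} c) :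
    ¬ W.InZeroComponentAt A Q := by
  haveI : NeZero p := ⟨hp.ne_zero⟩
  have hp2 : p ≠ 2 := fun h => hp' (by simp [h])
  have hC0 : SeamC0 p := Fermat.Agent.S15.G.CuspSeams.seamC0 hp
  have hCL : SeamCL p W Q := fun l hl hlp hlΔ hlc A hA hin =>
    Fermat.Agent.S15.E2.SeamCL.dvd_pred_or_succ hp W hΔ Q hQfix hQord hl hlp hlΔ hlc A hA hin
  have hKu : SeamKu p := fun c0 hc0 => Fermat.Agent.S15.G.CuspSeams.seamKu hp c0 hc0 _
  refine Fermat.Agent.S15.A.Top.mazur_of_seams hp hp' W Q h2Δ h2c₄ h2 h3Δ h3c₄ h3 hℓ hℓp hℓΔ hℓc₄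
    A hA hC0 hCE (seamCLw_of_seamCL hp hp2 hCL) hKu {p} rfl (fun c0 hc0 => ?_)
  -- the cuspidal class is rational, nonzero, killed by `p - 1`
  obtain ⟨c0', -, hc0rat, huniq⟩ := hC0
  have hrat : IsRatPlace p c0 := by
    rw [huniq c0 hc0]
    exact hc0rat
  have hfix : ∀ σ : GQ, σ • diffClass c0 (cuspInf p) = diffClass c0 (cuspInf p) :=
    Fermat.Agent.S15.A.Top.diffClass_mem_JQ hrat (isRatPlace_cuspInf p)
  have hne : diffClass c0 (cuspInf p) ≠ 0 :=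
    Fermat.Agent.S15.G.CuspSeams.diffClass_ne_zero hp hp' c0 hc0 _
  have hp1 : 0 < p - 1 := by
    have := hp.two_le
    omega
  obtain ⟨P, m, hP, hPdvd, hm, hPm, hmc⟩ := exists_prime_dvd_order hp1 hne (hKu c0 hc0)
  exact hStar P hP hPdvd _ hfix m hm hPm hmc

/-- **S15 from (STAR)** (the seam (C-E) is `S15/E2/SeamCE.seamCE`). -/
theorem mazur_of_star
    {p : ℕ} (hp : p.Prime) (hp' : p ∉ ({2, 3, 5, 7, 13} : Finset ℕ))
    (W : WeierstrassCurve ℤ) (hΔ : W.Δ ≠ 0)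
    (Q : ((W.map (Int.castRingHom ℚ))⁄(AlgebraicClosure ℚ)).Point)
    (hQfix : ∀ σ : AlgebraicClosure ℚ ≃ₐ[ℚ] AlgebraicClosure ℚ, σ • Q = Q)
    (hQord : addOrderOf Q = p)
    (h2Δ : (2 : ℤ) ∣ W.Δ) (h2c₄ : ¬ (2 : ℤ) ∣ W.c₄)
    (h2 : ∀ A : ValuationSubring (AlgebraicClosure ℚ), A.LiesOverPrime 2 →
      ¬ W.InZeroComponentAt A Q)
    (h3Δ : (3 : ℤ) ∣ W.Δ) (h3c₄ : ¬ (3 : ℤ) ∣ W.c₄)
    (h3 : ∀ A : ValuationSubring (AlgebraicClosure ℚ), A.LiesOverPrime 3 →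
      ¬ W.InZeroComponentAt A Q)
    {ℓ : ℕ} (hℓ : ℓ.Prime) (hℓp : ℓ ≠ p) (hℓΔ : (ℓ : ℤ) ∣ W.Δ) (hℓc₄ : ¬ (ℓ : ℤ) ∣ W.c₄)
    (A : ValuationSubring (AlgebraicClosure ℚ)) (hA : A.LiesOverPrime ℓ)
    (hStar : haveI : NeZero p := ⟨hp.ne_zero⟩;
      ∀ P : ℕ, P.Prime → P ∣ p - 1 → ∀ c : JZero p, (∀ σ : GQ, σ • c = c) →
        ∀ m : ℕ, m • c = 0 → P ∣ m → (m / P) • c ≠ 0 → SeamStar p {p} c) :
    ¬ W.InZeroComponentAt A Q :=
  mazur_of_CE_star hp hp' W hΔ Q hQfix hQord h2Δ h2c₄ h2 h3Δ h3c₄ h3 hℓ hℓp hℓΔ hℓc₄ A hA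
    (Fermat.Agent.S15.E2.SeamCE.seamCE hp (fun h => hp' (by simp [h])) W hΔ Q hQfix hQord h2Δ
      h2c₄ h2) hStar

end Fermat.Agent.S15.A.Assemble
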