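import Mathlib
import Fermat.Agent.S15.A.Assemble
import Fermat.Agent.S15.D.ToStar

/-!
# PROJECT M (S15), block [A]: (STAR) for the cuspidal class from the three inputs

`StarInputs N P` : the three inputs `hinv`, `hhalf`, `hCP` of `S15/D/ToStar.seamStar_of_descent` for
the Eisenstein parts `Gk N P k (insert P {N})`, with constants independent of `k`.

`hStar_of_inputs` : the hypothesis `hStar` of `S15/A/Assemble.mazur_of_star` from `StarInputs p P`
at every prime `P` dividing `p - 1`.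

`mazur_of_inputs` : S15 from `StarInputs p P` at every prime `P` dividing `p - 1`.
-/

set_option autoImplicit false
set_option linter.unusedSectionVars false
set_option linter.style.haveILetI false

noncomputable section

namespace Fermat.Agent.S15.A.StarFinal

open AlgebraicCurve ModularCurve WeierstrassCurve WeierstrassCurve.Affine
open Fermat.Agent.S15.A.Frame
open Fermat.Agent.S56.Coh
open Fermat.Agent.S15.K.Star Fermat.Agent.S15.K.Ord
open Fermat.Agent.S15.D Fermat.Agent.S15.D.Greenberg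

local notation "Kb" => AlgebraicClosure ℚ
local notation "GQ" => (AlgebraicClosure ℚ ≃ₐ[ℚ] AlgebraicClosure ℚ)

/-- the three inputs of (STAR) at `(N, P)`, for the set `insert P {N}` of excluded primes, with
constants independent of the level `k`: `hinv` (block [S], the prime `N`), `hhalf` (block [S], the
prime `P`) and `hCP` (the constant of the Greenberg condition at `P`) -/
def StarInputs (N : ℕ) [NeZero N] [Fact N.Prime] (P : ℕ) [Fact P.Prime] : Prop :=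
  (∃ n : ℕ, ∀ k : ℕ, 0 < k → Nat.card ↥(invI N (Gk N P k (insert P {N}))) ^ 2 ≤
      n ^ 2 * Nat.card (Gk N P k (insert P {N}))) ∧
  (∃ Ch0 : ℕ, ∀ k : ℕ, 0 < k → Nat.card ↥(G0red N P k (insert P {N})) ^ 2 ≤
      Ch0 ^ 2 * Nat.card (Gk N P k (insert P {N}))) ∧
  (∃ CP : ℕ, ∀ k : ℕ, 0 < k → Nat.card (Ch (Gk N P k (insert P {N})) ⧸
      chNull P (Gk N P k (insert P {N})) (G0red N P k (insert P {N}))) ≤ CP)

/-- **(STAR) for every rational torsion class**, from the three inputs at the primes dividing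
`p - 1`. -/
theorem hStar_of_inputs {p : ℕ} (hp : p.Prime) (hp5 : 5 ≤ p)
    (hIn : haveI : NeZero p := ⟨hp.ne_zero⟩; haveI : Fact p.Prime := ⟨hp⟩;
      ∀ (P : ℕ) [Fact P.Prime], P ∣ p - 1 → StarInputs p P) :
    haveI : NeZero p := ⟨hp.ne_zero⟩;
    ∀ P : ℕ, P.Prime → P ∣ p - 1 → ∀ c : JZero p, (∀ σ : GQ, σ • c = c) →
      ∀ m : ℕ, m • c = 0 → P ∣ m → (m / P) • c ≠ 0 → SeamStar p {p} c := by
  haveI : NeZero p := ⟨hp.ne_zero⟩
  intro P hP hPd c hcfix m hm hPm hmc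
  haveI : Fact p.Prime := ⟨hp⟩
  haveI : Fact P.Prime := ⟨hP⟩
  have hNP : p ≠ P := by
    intro h
    have hle : P ≤ p - 1 := Nat.le_of_dvd (by have := hp.two_le; omega) hPd
    have := hp.two_le
    omega
  obtain ⟨⟨n, hinv⟩, ⟨Ch0, hhalf⟩, ⟨CP, hCP⟩⟩ := hIn P hPd
  exact Fermat.Agent.S15.D.ToStar.seamStar_of_descent hp5 hNP (Set.finite_singleton p) rfl
    n hinv Ch0 hhalf CP hCP c hcfix m hm hPm hmc

/-- **S15 from the three inputs of (STAR)** at the primes dividing `p - 1`. -/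
theorem mazur_of_inputs
    {p : ℕ} (hp : p.Prime) (hp' : p ∉ ({2, 3, 5, 7, 13} : Finset ℕ))
    (W : WeierstrassCurve ℤ) (hΔ : W.Δ ≠ 0)
    (Q : ((W.map (Int.castRingHom ℚ))⁄(AlgebraicClosure ℚ)).Point)
    (hQfix : ∀ σ : AlgebraicClosure ℚ ≃ₐ[ℚ] AlgebraicClosure ℚ, σ • Q = Q)
    (hQord : addOrderOf Q = p)
    (h2Δ : (2 : ℤ) ∣ W.Δ) (h2c₄ : ¬ (2 : ℤ) ∣ W.c₄)
    (h2 : ∀ A : ValuationSubring (AlgebraicClosure ℚ), A.LiesOverPrime 2 →
      ¬ W.InZeroComponentAt A Q)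
    (h3Δ : (3 : ℤ) ∣ W.Δ) (h3c₄ : ¬ (3 : ℤ) ∣ W.c₄)
    (h3 : ∀ A : ValuationSubring (AlgebraicClosure ℚ), A.LiesOverPrime 3 →
      ¬ W.InZeroComponentAt A Q)
    {ℓ : ℕ} (hℓ : ℓ.Prime) (hℓp : ℓ ≠ p) (hℓΔ : (ℓ : ℤ) ∣ W.Δ) (hℓc₄ : ¬ (ℓ : ℤ) ∣ W.c₄)
    (A : ValuationSubring (AlgebraicClosure ℚ)) (hA : A.LiesOverPrime ℓ)
    (hIn : haveI : NeZero p := ⟨hp.ne_zero⟩; haveI : Fact p.Prime := ⟨hp⟩;
      ∀ (P : ℕ) [Fact P.Prime], P ∣ p - 1 → StarInputs p P) :
    ¬ W.InZeroComponentAt A Q := by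
  have hp5 : 5 ≤ p := by
    by_contra hlt
    push Not at hlt
    have h2le := hp.two_le
    interval_cases p
    · exact hp' (by simp)
    · exact hp' (by simp)
    · exact absurd hp (by decide)
  exact Fermat.Agent.S15.A.Assemble.mazur_of_star hp hp' W hΔ Q hQfix hQord h2Δ h2c₄ h2 h3Δ h3c₄
    h3 hℓ hℓp hℓΔ hℓc₄ A hA (hStar_of_inputs hp hp5 hIn)

end Fermat.Agent.S15.A.StarFinal
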